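/-
S35-ALG (helper75): the separation lemma for algebraic integers.

`eq_zero_of_forall_pow_dvd`: a complex number which, for every `n`, is `p ^ n` times an algebraic
integer (`p ≥ 2`), is zero.  (The ring of all algebraic integers is not `p`-adically separated as
a topological statement about ideals of a Noetherian ring, but the intersection of the ideals
`p ^ n ℤ̄` is still zero: the constant term of an integral equation of `d` with nonzero constant
term is divisible by `p ^ n` in `ℤ̄ ∩ ℚ = ℤ`.)  Mathlib only.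
-/
import Mathlib

set_option autoImplicit false

namespace Fermat.Agent.S35.H75

open Polynomial

/-- An integer divisible by `p ^ n` for all `n` (`p ≥ 2`) is zero. -/
theorem int_eq_zero_of_forall_pow_dvd (p : ℕ) (hp : 2 ≤ p) (a : ℤ)
    (h : ∀ n : ℕ, (p : ℤ) ^ n ∣ a) : a = 0 := by
  by_contra ha
  have h1 := h a.natAbs
  have h2 : (p : ℤ) ^ a.natAbs ≤ |a| := Int.le_of_dvd (abs_pos.mpr ha) ((dvd_abs _ _).mpr h1)
  have h3 : a.natAbs < p ^ a.natAbs := Nat.lt_pow_self (by omega)
  have h4 : ((a.natAbs : ℕ) : ℤ) < (p : ℤ) ^ a.natAbs := by exact_mod_cast h3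
  rw [Int.abs_eq_natAbs] at h2
  omega

/-- A rational number which is integral over `ℤ` inside `ℂ` is an integer. -/
theorem exists_int_of_isIntegral_ratCast (x : ℚ) (h : IsIntegral ℤ ((x : ℚ) : ℂ)) :
    ∃ y : ℤ, (y : ℚ) = x := by
  have h1 : IsIntegral ℤ x := by
    have h2 : IsIntegral ℤ (algebraMap ℚ ℂ x) := by
      simpa using h
    exact (isIntegral_algebraMap_iff (algebraMap ℚ ℂ).injective).1 h2
  obtain ⟨y, hy⟩ := IsIntegrallyClosed.isIntegral_iff.1 h1
  exact ⟨y, by simpa using hy⟩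

/-- **Separation.** A complex number which is `p ^ n` times an algebraic integer for every `n`
is zero. -/
theorem eq_zero_of_forall_pow_dvd (p : ℕ) (hp : 2 ≤ p) (d : ℂ)
    (h : ∀ n : ℕ, ∃ e : ℂ, IsIntegral ℤ e ∧ d = (p : ℂ) ^ n * e) : d = 0 := by
  by_contra hd
  have hp0 : (p : ℂ) ≠ 0 := by
    have : p ≠ 0 := by omega
    exact_mod_cast this
  -- `d` is integral
  obtain ⟨e0, he0, hde0⟩ := h 0
  have hdint : IsIntegral ℤ d := by
    rw [hde0, pow_zero, one_mul]
    exact he0
  obtain ⟨f, hfm, hf⟩ := hdint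
  have hf' : aeval d f = 0 := by
    rw [aeval_def]
    exact hf
  -- split off the powers of `X`
  obtain ⟨g, hfg, hg⟩ := exists_eq_pow_rootMultiplicity_mul_and_not_dvd f hfm.ne_zero 0
  rw [map_zero, sub_zero] at hfg hg
  have hg0 : g.coeff 0 ≠ 0 := fun h0 => hg (X_dvd_iff.2 h0)
  have hgd : aeval d g = 0 := by
    rw [hfg, map_mul, map_pow, aeval_X] at hf'
    exact (mul_eq_zero.1 hf').resolve_left (pow_ne_zero _ hd)
  -- `g = divX g * X + C (g.coeff 0)`
  have hsplit : aeval d (divX g) * d + ((g.coeff 0 : ℤ) : ℂ) = 0 := by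
    have h1 := congrArg (aeval d) (divX_mul_X_add g)
    rw [map_add, map_mul, aeval_X, aeval_C, hgd] at h1
    simpa using h1
  have hu : IsIntegral ℤ (aeval d (divX g)) := by
    have hmem : aeval d (divX g) ∈ Algebra.adjoin ℤ ({d} : Set ℂ) :=
      aeval_mem_adjoin_singleton ℤ d
    have hle : Algebra.adjoin ℤ ({d} : Set ℂ) ≤ integralClosure ℤ ℂ :=
      Algebra.adjoin_le fun x hx => by
        rw [Set.mem_singleton_iff] at hx
        rw [hx]
        exact ⟨f, hfm, hf⟩
    exact hle hmem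
  -- the constant term is divisible by every power of `p`
  apply hg0
  apply int_eq_zero_of_forall_pow_dvd p hp
  intro n
  obtain ⟨e, he, hde⟩ := h n
  have hquot : IsIntegral ℤ ((((g.coeff 0 : ℤ) : ℚ) / (p : ℚ) ^ n : ℚ) : ℂ) := by
    have h2 : ((((g.coeff 0 : ℤ) : ℚ) / (p : ℚ) ^ n : ℚ) : ℂ) = -(aeval d (divX g) * e) := by
      push_cast
      rw [div_eq_iff (pow_ne_zero n hp0)]
      have h3 : ((g.coeff 0 : ℤ) : ℂ) = -(aeval d (divX g) * d) := by
        rw [eq_neg_iff_add_eq_zero, add_comm]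
        exact hsplit
      rw [h3, hde]
      ring
    rw [h2]
    exact (hu.mul he).neg
  obtain ⟨y, hy⟩ := exists_int_of_isIntegral_ratCast _ hquot
  refine ⟨y, ?_⟩
  have hp0' : ((p : ℚ) ^ n) ≠ 0 := by
    have : p ≠ 0 := by omega
    exact pow_ne_zero n (by exact_mod_cast this)
  have h4 : ((g.coeff 0 : ℤ) : ℚ) = (p : ℚ) ^ n * (y : ℚ) := by
    rw [hy]
    field_simp
  exact_mod_cast h4

end Fermat.Agent.S35.H75
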