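/-
S35-ALG (helper75): the eigencharacter of a normalised eigenform.

For a normalised eigenform `f` of level `N` (Prelude sense: coefficient relations) and any
`S : Set ℕ`, every element `t` of `heckeAlgebra N 2 S` acts on `f` by the scalar
`eigenChar S hf t = a_1(t f)`; `eigenChar S hf` is a ring homomorphism
`heckeAlgebra N 2 S →+* ℂ` with `T_ℓ ↦ a_ℓ(f)`, `U_q ↦ a_q(f)`, and its values are algebraic
integers (the Hecke algebra is finite over `ℤ`, landed S22).
-/
import Mathlib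
import Fermat.Prelude.Def_CuspForm_HeckeAlgebra
import Fermat.Agent.S41.H16.EigenHom
import Fermat.Agent.S22.H50.Final

set_option autoImplicit false

open CongruenceSubgroup CuspForm
open ModularFormClass (qCoeff)

namespace Fermat.Agent.S35.H75

section

variable {N : ℕ} [NeZero N] {f : CuspForm (Gamma0 N) 2}

theorem heckeTLin_apply_eigenform (hf : f.IsNormalizedEigenform) {ℓ : ℕ} (hℓ : ℓ.Prime)
    (hℓN : ¬ ℓ ∣ N) : heckeTLin 2 hℓ hℓN f = qCoeff f ℓ • f := by
  rw [← Fermat.Agent.S41.H40.formOp_of_not_dvd hℓ hℓN f]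
  exact Fermat.Agent.S41.H16.formOp_eq_smul N f hf ⟨ℓ, hℓ⟩

theorem heckeULin_apply_eigenform (hf : f.IsNormalizedEigenform) {q : ℕ} (hq : q.Prime)
    (hqN : q ∣ N) : heckeULin 2 hqN f = qCoeff f q • f := by
  rw [← Fermat.Agent.S41.H40.formOp_of_dvd hq hqN f]
  exact Fermat.Agent.S41.H16.formOp_eq_smul N f hf ⟨q, hq⟩

/-- Every element of the Hecke algebra acts on a normalised eigenform by a scalar. -/
theorem exists_smul_of_mem_heckeAlgebra (hf : f.IsNormalizedEigenform) (S : Set ℕ)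
    (t : Module.End ℂ (CuspForm (Gamma0 N) 2)) (ht : t ∈ heckeAlgebra N 2 S) :
    ∃ c : ℂ, t f = c • f := by
  refine Algebra.adjoin_induction (p := fun t _ => ∃ c : ℂ, t f = c • f) ?_ ?_ ?_ ?_ ht
  · rintro t (⟨ℓ, hℓ, hℓN, -, rfl⟩ | ⟨q, hqN, hq, -, rfl⟩)
    · exact ⟨_, heckeTLin_apply_eigenform hf hℓ hℓN⟩
    · exact ⟨_, heckeULin_apply_eigenform hf hq hqN⟩
  · intro r
    refine ⟨(r : ℂ), ?_⟩
    rw [Module.algebraMap_end_apply, Int.cast_smul_eq_zsmul]
  · rintro x y - - ⟨c, hc⟩ ⟨d, hd⟩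
    exact ⟨c + d, by rw [LinearMap.add_apply, hc, hd, add_smul]⟩
  · rintro x y - - ⟨c, hc⟩ ⟨d, hd⟩
    exact ⟨d * c, by rw [Module.End.mul_apply, hd, map_smul, hc, smul_smul]⟩

/-- The scalar is the first `q`-coefficient. -/
theorem apply_eq_qCoeff_smul (hf : f.IsNormalizedEigenform) (S : Set ℕ)
    (t : heckeAlgebra N 2 S) :
    (t : Module.End ℂ (CuspForm (Gamma0 N) 2)) f =
      qCoeff ((t : Module.End ℂ (CuspForm (Gamma0 N) 2)) f) 1 • f := by
  obtain ⟨c, hc⟩ := exists_smul_of_mem_heckeAlgebra hf S t.1 t.2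
  have h1 : qCoeff ((t : Module.End ℂ (CuspForm (Gamma0 N) 2)) f) 1 = c := by
    rw [hc, Fermat.Agent.S49.qCoeff_smul, hf.qCoeff_one, mul_one]
  rw [h1]
  exact hc

/-- **The eigencharacter** of a normalised eigenform: `t ↦ a_1(t f)`. -/
noncomputable def eigenChar (S : Set ℕ) (hf : f.IsNormalizedEigenform) :
    heckeAlgebra N 2 S →+* ℂ where
  toFun t := qCoeff ((t : Module.End ℂ (CuspForm (Gamma0 N) 2)) f) 1
  map_one' := by
    show qCoeff (((1 : heckeAlgebra N 2 S) : Module.End ℂ (CuspForm (Gamma0 N) 2)) f) 1 = 1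
    rw [OneMemClass.coe_one, Module.End.one_apply]
    exact hf.qCoeff_one
  map_mul' s t := by
    show qCoeff (((s * t : heckeAlgebra N 2 S) : Module.End ℂ (CuspForm (Gamma0 N) 2)) f) 1 =
      qCoeff ((s : Module.End ℂ (CuspForm (Gamma0 N) 2)) f) 1 *
        qCoeff ((t : Module.End ℂ (CuspForm (Gamma0 N) 2)) f) 1
    rw [MulMemClass.coe_mul, Module.End.mul_apply]
    conv_lhs => rw [apply_eq_qCoeff_smul hf S t, map_smul, Fermat.Agent.S49.qCoeff_smul]
    rw [mul_comm]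
  map_zero' := by
    show qCoeff (((0 : heckeAlgebra N 2 S) : Module.End ℂ (CuspForm (Gamma0 N) 2)) f) 1 = 0
    rw [ZeroMemClass.coe_zero, LinearMap.zero_apply]
    have := Fermat.Agent.S49.qCoeff_smul (0 : ℂ) (0 : CuspForm (Gamma0 N) 2) 1
    simpa using this
  map_add' s t := by
    show qCoeff (((s + t : heckeAlgebra N 2 S) : Module.End ℂ (CuspForm (Gamma0 N) 2)) f) 1 =
      qCoeff ((s : Module.End ℂ (CuspForm (Gamma0 N) 2)) f) 1 +
        qCoeff ((t : Module.End ℂ (CuspForm (Gamma0 N) 2)) f) 1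
    rw [AddMemClass.coe_add, LinearMap.add_apply, Fermat.Agent.S49.qCoeff_add]

theorem eigenChar_apply (S : Set ℕ) (hf : f.IsNormalizedEigenform) (t : heckeAlgebra N 2 S) :
    eigenChar S hf t = qCoeff ((t : Module.End ℂ (CuspForm (Gamma0 N) 2)) f) 1 := rfl

/-- The defining property: `t f = χ_f(t) • f`. -/
theorem apply_eq_eigenChar_smul (S : Set ℕ) (hf : f.IsNormalizedEigenform)
    (t : heckeAlgebra N 2 S) :
    (t : Module.End ℂ (CuspForm (Gamma0 N) 2)) f = eigenChar S hf t • f :=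
  apply_eq_qCoeff_smul hf S t

theorem eigenChar_T (S : Set ℕ) (hf : f.IsNormalizedEigenform) {ℓ : ℕ} (hℓ : ℓ.Prime)
    (hℓN : ¬ ℓ ∣ N) (hℓS : ℓ ∉ S) :
    eigenChar S hf (heckeAlgebra.T hℓ hℓN hℓS) = qCoeff f ℓ := by
  rw [eigenChar_apply, heckeAlgebra.coe_T, heckeTLin_apply_eigenform hf hℓ hℓN,
    Fermat.Agent.S49.qCoeff_smul, hf.qCoeff_one, mul_one]

theorem eigenChar_U (S : Set ℕ) (hf : f.IsNormalizedEigenform) {q : ℕ} (hq : q.Prime)
    (hqN : q ∣ N) (hqS : q ∉ S) :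
    eigenChar S hf (heckeAlgebra.U hq hqN hqS) = qCoeff f q := by
  rw [eigenChar_apply, heckeAlgebra.coe_U, heckeULin_apply_eigenform hf hq hqN,
    Fermat.Agent.S49.qCoeff_smul, hf.qCoeff_one, mul_one]

/-- The values of the eigencharacter are algebraic integers. -/
theorem isIntegral_eigenChar (S : Set ℕ) (hf : f.IsNormalizedEigenform)
    (t : heckeAlgebra N 2 S) : IsIntegral ℤ (eigenChar S hf t) := by
  have : Module.Finite ℤ (heckeAlgebra N 2 S) :=
    Fermat.Agent.S22.H50.moduleFinite_heckeAlgebra N 2 S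
  exact map_isIntegral_int (eigenChar S hf) (IsIntegral.of_finite ℤ t)

/-- In particular the Hecke eigenvalues `a_ℓ(f)`, `ℓ` prime, are algebraic integers. -/
theorem isIntegral_qCoeff_prime (hf : f.IsNormalizedEigenform) {ℓ : ℕ} (hℓ : ℓ.Prime) :
    IsIntegral ℤ (qCoeff f ℓ) := by
  by_cases hℓN : ℓ ∣ N
  · rw [← eigenChar_U (∅ : Set ℕ) hf hℓ hℓN (Set.notMem_empty ℓ)]
    exact isIntegral_eigenChar _ hf _
  · rw [← eigenChar_T (∅ : Set ℕ) hf hℓ hℓN (Set.notMem_empty ℓ)]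
    exact isIntegral_eigenChar _ hf _

end

end Fermat.Agent.S35.H75
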