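/-
S35-ALG, leaf (SMO) (helper75): strong multiplicity one for the Hecke eigenvalues of two
normalised eigenforms, at finite level (the lead's proof #2665).

`qCoeff_eq_of_forall_not_mem`: if `g` (level `M`) and `g'` (level `M' ∣ M`) are normalised
eigenforms with `a_ℓ(g) = a_ℓ(g')` for all primes `ℓ` outside a finite set `S`, then
`a_ℓ(g) = a_ℓ(g')` for ALL primes `ℓ ∤ M`.

Proof.  Fix `ℓ ∤ M`, a prime `p ≠ ℓ` and `n`.  At each of the two levels `N` the landed leaves of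
S31 (Abel–Jacobi modulo `p ^ (n + c)`, Eichler–Shimura, cyclotomic character, stable torsion
subgroup, saturation of the Hecke action on the lattice) give a number field `E_N` such that for
Frobenius lifts `h` at `ℓ`, `h'` at `ℓ'` (both prime to `N p`) and exponents `i`, `i'` with
`h ^ i ≡ h' ^ i'` modulo `Gal(ℚ̄ / E_N)`:
`V_i(T_ℓ, ℓ) - V_i'(T_ℓ', ℓ') ∈ p ^ n • heckeAlgebra N 2 ∅` (`exists_level_lucasV_congr`,
which is the `hΔ` block of `S31/H34/Top.lean`).  Apply the eigencharacter of the eigenform.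
With `E = E_M ⊔ E_M'`, `σ₀` a Frobenius lift at `ℓ` and (cyclic Frobenius density, helper69)
a Frobenius lift `h₁` at a large prime `ℓ₁ ∉ S` with `h₁ ^ m ≡ σ₀` modulo `Gal(ℚ̄ / E)`:
`a_ℓ(g) - V_m(a_ℓ₁(g), ℓ₁)` and `a_ℓ(g') - V_m(a_ℓ₁(g'), ℓ₁)` are `p ^ n` times algebraic
integers and `a_ℓ₁(g) = a_ℓ₁(g')`; so `a_ℓ(g) - a_ℓ(g')` is `p ^ n` times an algebraic integer
for every `n`, hence zero (`eq_zero_of_forall_pow_dvd`).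
-/
import Mathlib
import Fermat.Agent.S31.H34.AJ
import Fermat.Agent.S31.H75.HALeaf
import Fermat.Agent.S54.Frobenius
import Fermat.Agent.S35.H75.AlgIntSep
import Fermat.Agent.S35.H75.EigenChar

set_option autoImplicit false

open CongruenceSubgroup ModularCurve ModularCurve.Period CuspForm
open ModularFormClass (qCoeff)
open Fermat.Agent.S16.H75 (heckeHom)
open Fermat.Agent.S31.H35 (lucasV lucasV_zero lucasV_one lucasV_add_two map_lucasV)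
open Fermat.Agent.S31.H34 (Lat lucasV_end_semiconj lucasV_apply_eq_lucasV_apply)

namespace Fermat.Agent.S35.H75

local notation "Qb" => AlgebraicClosure ℚ
local notation "Γ" => (AlgebraicClosure ℚ ≃ₐ[ℚ] AlgebraicClosure ℚ)

/-- **The Lucas congruence at one level.**  For a prime `p` and `n` there is a number field `E`
such that, whenever Frobenius lifts `h` at `ℓ` and `h'` at `ℓ'` (primes not dividing `N`, different
from `p`) satisfy `h ^ i ≡ g ≡ h' ^ i'` modulo `Gal(ℚ̄ / E)`, the difference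
`V_i(T_ℓ, ℓ) - V_i'(T_ℓ', ℓ')` is divisible by `p ^ n` in the Hecke algebra of level `N`. -/
theorem exists_level_lucasV_congr (N : ℕ) [NeZero N] (p : ℕ) (hp : p.Prime) (n : ℕ) :
    ∃ E : IntermediateField ℚ Qb, FiniteDimensional ℚ E ∧
      ∀ (g : Γ) (ℓ : ℕ) (hℓ : ℓ.Prime) (_ : ℓ ≠ p) (hℓN : ¬ ℓ ∣ N)
        (A : ValuationSubring Qb) (_ : A.LiesOverPrime ℓ) (h : Γ) (_ : A.IsFrobeniusAt h ℓ)
        (i : ℕ) (_ : ∀ a ∈ E, (g⁻¹ * h ^ i) a = a)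
        (ℓ' : ℕ) (hℓ' : ℓ'.Prime) (_ : ℓ' ≠ p) (hℓ'N : ¬ ℓ' ∣ N)
        (A' : ValuationSubring Qb) (_ : A'.LiesOverPrime ℓ') (h' : Γ)
        (_ : A'.IsFrobeniusAt h' ℓ') (i' : ℕ) (_ : ∀ a ∈ E, (g⁻¹ * h' ^ i') a = a),
        ∃ f' : heckeAlgebra N 2 (↑(∅ : Finset ℕ) : Set ℕ),
          lucasV (heckeAlgebra.T hℓ hℓN (Finset.notMem_empty ℓ) :
              heckeAlgebra N 2 (↑(∅ : Finset ℕ) : Set ℕ))
            ((ℓ : ℕ) : heckeAlgebra N 2 (↑(∅ : Finset ℕ) : Set ℕ)) i -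
          lucasV (heckeAlgebra.T hℓ' hℓ'N (Finset.notMem_empty ℓ') :
              heckeAlgebra N 2 (↑(∅ : Finset ℕ) : Set ℕ))
            ((ℓ' : ℕ) : heckeAlgebra N 2 (↑(∅ : Finset ℕ) : Set ℕ)) i' = p ^ n • f' := by
  obtain ⟨Φ, c, hΦT, hsat⟩ := Fermat.Agent.S31.H75.haLeaf N p hp (∅ : Finset ℕ)
  obtain ⟨AJ, hAJker, hAJT⟩ := Fermat.Agent.S31.H34.ajLeaf N p hp.ne_zero (n + c)
  have hES := Fermat.Agent.S31.H34.esLeaf N p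
  -- the stable subgroup
  have hfin : Module.Finite ℤ (Lat N) := Fermat.Agent.S41.H40.finite_parabolicHoms_int N
  have hfg : (AJ.range).FG := by
    have h1 : AddGroup.FG (Lat N) := Module.Finite.iff_addGroup_fg.1 hfin
    exact (AddGroup.fg_iff_addSubgroup_fg _).1 (AddGroup.fg_range AJ)
  have hAJp : ∀ x ∈ AJ.range, p ^ (n + c) • x = 0 := by
    rintro _ ⟨ψ, rfl⟩
    rw [← map_nsmul]
    exact (hAJker _).2 ⟨ψ, rfl⟩
  obtain ⟨Z, E₂, hE₂fd, hMZ, hZp, hZG, hZT, hZE⟩ :=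
    Fermat.Agent.S31.H34.stableLeaf N p (n + c) AJ.range hfg hAJp
  obtain ⟨ε, ⟨E₃, hE₃fd, hεE⟩, hεF, -⟩ := Fermat.Agent.S31.H34.cycLeaf p hp (n + c)
  have hE₂ : E₂ ≤ E₂ ⊔ E₃ := le_sup_left
  have hE₃ : E₃ ≤ E₂ ⊔ E₃ := le_sup_right
  refine ⟨E₂ ⊔ E₃, IntermediateField.finiteDimensional_sup E₂ E₃, ?_⟩
  intro g ℓ hℓ hℓp hℓN A hA h hh i hi ℓ' hℓ' hℓ'p hℓ'N A' hA' h' hh' i' hi'
  have hℓNp : ¬ ℓ ∣ N * p := fun hd => by
    rcases (Nat.Prime.dvd_mul hℓ).1 hd with hd | hd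
    · exact hℓN hd
    · exact hℓp ((Nat.prime_dvd_prime_iff_eq hℓ hp).1 hd)
  have hℓ'Np : ¬ ℓ' ∣ N * p := fun hd => by
    rcases (Nat.Prime.dvd_mul hℓ').1 hd with hd | hd
    · exact hℓ'N hd
    · exact hℓ'p ((Nat.prime_dvd_prime_iff_eq hℓ' hp).1 hd)
  have hℓS' : ℓ ∉ (↑(∅ : Finset ℕ) : Set ℕ) := Finset.notMem_empty ℓ
  have hℓ'S' : ℓ' ∉ (↑(∅ : Finset ℕ) : Set ℕ) := Finset.notMem_empty ℓ'
  refine hsat n _ fun ψ => (hAJker _).1 ?_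
  rw [map_sub, map_lucasV, map_lucasV, map_natCast, map_natCast, LinearMap.sub_apply, map_sub,
    lucasV_end_semiconj AJ (Φ (heckeAlgebra.T hℓ hℓN hℓS')) (heckeOperatorBar N ⟨ℓ, hℓ⟩) ℓ
      (fun x => (hAJT ⟨ℓ, hℓ⟩ hℓN x (Φ (heckeAlgebra.T hℓ hℓN hℓS') x)
        (hΦT ℓ hℓ hℓN hℓS' x)).symm) i ψ,
    lucasV_end_semiconj AJ (Φ (heckeAlgebra.T hℓ' hℓ'N hℓ'S')) (heckeOperatorBar N ⟨ℓ', hℓ'⟩) ℓ'
      (fun x => (hAJT ⟨ℓ', hℓ'⟩ hℓ'N x (Φ (heckeAlgebra.T hℓ' hℓ'N hℓ'S') x)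
        (hΦT ℓ' hℓ' hℓ'N hℓ'S' x)).symm) i' ψ,
    sub_eq_zero]
  exact lucasV_apply_eq_lucasV_apply hES (n + c) Z hZp hZG hZT (E₂ ⊔ E₃)
    (fun σ hσ => hZE σ fun a ha => hσ a (hE₂ ha)) ε
    (fun σ hσ => hεE σ fun a ha => hσ a (hE₃ ha)) hεF g 1
    (fun x _ => one_smul _ x) (map_one ε)
    ℓ hℓ hℓp hℓNp A hA h hh i hi ℓ' hℓ' hℓ'p hℓ'Np A' hA' h' hh' i'
    (fun a ha => by rw [one_mul]; exact hi' a ha) (AJ ψ) (hMZ ⟨ψ, rfl⟩)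

/-- The Lucas congruence for the eigenvalues of a normalised eigenform of level `N`. -/
theorem exists_level_qCoeff_congr (N : ℕ) [NeZero N] (p : ℕ) (hp : p.Prime) (n : ℕ) :
    ∃ E : IntermediateField ℚ Qb, FiniteDimensional ℚ E ∧
      ∀ (f : CuspForm (Gamma0 N) 2) (_ : f.IsNormalizedEigenform)
        (g : Γ) (ℓ : ℕ) (_ : ℓ.Prime) (_ : ℓ ≠ p) (_ : ¬ ℓ ∣ N)
        (A : ValuationSubring Qb) (_ : A.LiesOverPrime ℓ) (h : Γ) (_ : A.IsFrobeniusAt h ℓ)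
        (i : ℕ) (_ : ∀ a ∈ E, (g⁻¹ * h ^ i) a = a)
        (ℓ' : ℕ) (_ : ℓ'.Prime) (_ : ℓ' ≠ p) (_ : ¬ ℓ' ∣ N)
        (A' : ValuationSubring Qb) (_ : A'.LiesOverPrime ℓ') (h' : Γ)
        (_ : A'.IsFrobeniusAt h' ℓ') (i' : ℕ) (_ : ∀ a ∈ E, (g⁻¹ * h' ^ i') a = a),
        ∃ e : ℂ, IsIntegral ℤ e ∧
          lucasV (qCoeff f ℓ) (ℓ : ℂ) i - lucasV (qCoeff f ℓ') (ℓ' : ℂ) i' = (p : ℂ) ^ n * e := by
  obtain ⟨E, hEfd, hE⟩ := exists_level_lucasV_congr N p hp n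
  refine ⟨E, hEfd, ?_⟩
  intro f hf g ℓ hℓ hℓp hℓN A hA h hh i hi ℓ' hℓ' hℓ'p hℓ'N A' hA' h' hh' i' hi'
  obtain ⟨f', hf'⟩ := hE g ℓ hℓ hℓp hℓN A hA h hh i hi ℓ' hℓ' hℓ'p hℓ'N A' hA' h' hh' i' hi'
  refine ⟨eigenChar _ hf f', isIntegral_eigenChar _ hf f', ?_⟩
  have h1 := congrArg (eigenChar (↑(∅ : Finset ℕ) : Set ℕ) hf) hf'
  rw [map_sub, map_lucasV, map_lucasV, map_natCast, map_natCast, eigenChar_T, eigenChar_T,
    map_nsmul, nsmul_eq_mul, Nat.cast_pow] at h1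
  exact h1

/-- **Strong multiplicity one** for Hecke eigenvalues (finite-level proof), two arbitrary
levels: two normalised eigenforms of levels `M`, `M'` whose eigenvalues agree at all primes outside
a finite set have the same eigenvalues at all primes dividing neither `M` nor `M'`. -/
theorem qCoeff_eq_of_forall_not_mem_of_not_dvd {M M' : ℕ} [NeZero M] [NeZero M']
    {g : CuspForm (Gamma0 M) 2} {g' : CuspForm (Gamma0 M') 2}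
    (hg : g.IsNormalizedEigenform) (hg' : g'.IsNormalizedEigenform) (S : Finset ℕ)
    (h : ∀ ℓ : ℕ, ℓ.Prime → ℓ ∉ S → qCoeff g ℓ = qCoeff g' ℓ) :
    ∀ ℓ : ℕ, ℓ.Prime → ¬ ℓ ∣ M → ¬ ℓ ∣ M' → qCoeff g ℓ = qCoeff g' ℓ := by
  intro ℓ hℓ hℓM hℓM'
  -- an auxiliary prime `p ≠ ℓ`
  obtain ⟨p, hp, hℓp⟩ : ∃ p : ℕ, p.Prime ∧ ℓ ≠ p := by
    by_cases h2 : ℓ = 2
    · exact ⟨3, Nat.prime_three, by omega⟩
    · exact ⟨2, Nat.prime_two, h2⟩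
  rw [← sub_eq_zero]
  refine eq_zero_of_forall_pow_dvd p hp.two_le _ fun n => ?_
  obtain ⟨E₁, hE₁fd, hE₁⟩ := exists_level_qCoeff_congr M p hp n
  obtain ⟨E₂, hE₂fd, hE₂⟩ := exists_level_qCoeff_congr M' p hp n
  have hEfd : FiniteDimensional ℚ (E₁ ⊔ E₂ : IntermediateField ℚ Qb) :=
    IntermediateField.finiteDimensional_sup E₁ E₂
  have hle₁ : E₁ ≤ E₁ ⊔ E₂ := le_sup_left
  have hle₂ : E₂ ≤ E₁ ⊔ E₂ := le_sup_right
  -- a Frobenius lift at `ℓ`, approximated by a power of a Frobenius lift at a large prime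
  obtain ⟨A, hA, σ, hσ⟩ := Fermat.Agent.S54.exists_isFrobeniusAt ℓ hℓ
  obtain ⟨ℓ₁, A₁, h₁, m, hℓ₁, hBℓ₁, hA₁, hh₁, -, hm, -⟩ :=
    Fermat.Agent.S29.H69.exists_frobenius_pos_pow_mem_fixingSubgroup (E₁ ⊔ E₂) σ
      (S.sup id + M + M' + p)
  have hm0 : ∀ a ∈ (E₁ ⊔ E₂ : IntermediateField ℚ Qb), (σ⁻¹ * h₁ ^ m) a = a := fun a ha =>
    (IntermediateField.mem_fixingSubgroup_iff (E₁ ⊔ E₂) _).1 hm a ha
  have hσ0 : ∀ a : Qb, (σ⁻¹ * σ ^ 1) a = a := fun a => by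
    rw [pow_one, inv_mul_cancel]
    rfl
  have hℓ₁S : ℓ₁ ∉ S := fun hmem => by
    have := Finset.le_sup (f := id) hmem
    simp only [id] at this
    omega
  have hℓ₁p : ℓ₁ ≠ p := by omega
  have hℓ₁M : ¬ ℓ₁ ∣ M := fun hd => by
    have := Nat.le_of_dvd (Nat.pos_of_ne_zero (NeZero.ne M)) hd
    omega
  have hℓ₁M' : ¬ ℓ₁ ∣ M' := fun hd => by
    have := Nat.le_of_dvd (Nat.pos_of_ne_zero (NeZero.ne M')) hd
    omega
  obtain ⟨e₁, he₁, hc₁⟩ := hE₁ g hg σ ℓ hℓ hℓp hℓM A hA σ hσ 1 (fun a _ => hσ0 a)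
    ℓ₁ hℓ₁ hℓ₁p hℓ₁M A₁ hA₁ h₁ hh₁ m (fun a ha => hm0 a (hle₁ ha))
  obtain ⟨e₂, he₂, hc₂⟩ := hE₂ g' hg' σ ℓ hℓ hℓp hℓM' A hA σ hσ 1 (fun a _ => hσ0 a)
    ℓ₁ hℓ₁ hℓ₁p hℓ₁M' A₁ hA₁ h₁ hh₁ m (fun a ha => hm0 a (hle₂ ha))
  refine ⟨e₁ - e₂, he₁.sub he₂, ?_⟩
  rw [lucasV_one] at hc₁ hc₂
  rw [mul_sub, ← hc₁, ← hc₂, h ℓ₁ hℓ₁ hℓ₁S]
  ring

/-- **Strong multiplicity one** for Hecke eigenvalues (finite-level proof): two normalised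
eigenforms of levels `M' ∣ M` whose eigenvalues agree at all primes outside a finite set have the
same eigenvalues at all primes not dividing `M`. -/
theorem qCoeff_eq_of_forall_not_mem {M M' : ℕ} [NeZero M] [NeZero M'] (hM' : M' ∣ M)
    {g : CuspForm (Gamma0 M) 2} {g' : CuspForm (Gamma0 M') 2}
    (hg : g.IsNormalizedEigenform) (hg' : g'.IsNormalizedEigenform) (S : Finset ℕ)
    (h : ∀ ℓ : ℕ, ℓ.Prime → ℓ ∉ S → qCoeff g ℓ = qCoeff g' ℓ) :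
    ∀ ℓ : ℕ, ℓ.Prime → ¬ ℓ ∣ M → qCoeff g ℓ = qCoeff g' ℓ := fun ℓ hℓ hℓM =>
  qCoeff_eq_of_forall_not_mem_of_not_dvd hg hg' S h ℓ hℓ hℓM fun hd => hℓM (hd.trans hM')

/-- The same with the exceptional set given as a finite `Set`. -/
theorem qCoeff_eq_of_forall_not_mem_set {M M' : ℕ} [NeZero M] [NeZero M'] (hM' : M' ∣ M)
    {g : CuspForm (Gamma0 M) 2} {g' : CuspForm (Gamma0 M') 2}
    (hg : g.IsNormalizedEigenform) (hg' : g'.IsNormalizedEigenform) (S : Set ℕ) (hS : S.Finite)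
    (h : ∀ ℓ : ℕ, ℓ.Prime → ℓ ∉ S → qCoeff g ℓ = qCoeff g' ℓ) :
    ∀ ℓ : ℕ, ℓ.Prime → ¬ ℓ ∣ M → qCoeff g ℓ = qCoeff g' ℓ :=
  qCoeff_eq_of_forall_not_mem hM' hg hg' hS.toFinset fun ℓ hℓ hℓS =>
    h ℓ hℓ fun hmem => hℓS (hS.mem_toFinset.2 hmem)

end Fermat.Agent.S35.H75
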