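/-
S35-ALG, route (a) of (NP2) (helper75): integral lifts of parabolic homomorphisms modulo `m`,
up to a bounded exponent.

`exists_exponent_lift_of_fg`: for a finitely generated group `G` and a set `P ⊆ G` there is
`e ≠ 0` such that for every `m` and every `ψ : G → ℤ/m` vanishing on `P`, the multiple `e • ψ` is
the reduction of a homomorphism `φ : G → ℤ` vanishing on `P`.
(`A := G^ab / ⟨P⟩` is a finitely generated abelian group; `e` is an exponent of its torsion
subgroup; `e • ψ` factors through the free group `A / torsion`.)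

`exists_exponent_lift`: the instance `G = Γ₀(N)`, `P` = the parabolic elements:
`e • ψ = redHom N m φ` with `φ` in the integral parabolic lattice.
-/
import Mathlib
import Fermat.Agent.S41.H16.RedInt
import Fermat.Agent.S42.H96.R1
import Fermat.Agent.S22.H75.Gamma0FG

set_option autoImplicit false

open CongruenceSubgroup ModularCurve ModularCurve.Period

namespace Fermat.Agent.S35.H75

/-- **Bounded-exponent lift.** -/
theorem exists_exponent_lift_of_fg (G : Type*) [Group G] [Group.FG G] (P : Set G) :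
    ∃ e : ℕ, e ≠ 0 ∧ ∀ (m : ℕ) (ψ : Additive G →+ ZMod m),
      (∀ γ ∈ P, ψ (Additive.ofMul γ) = 0) →
      ∃ φ : Additive G →+ ℤ, (∀ γ ∈ P, φ (Additive.ofMul γ) = 0) ∧
        (Int.castAddHom (ZMod m)).comp φ = e • ψ := by
  classical
  let of' : Additive G →+ Additive (Abelianization G) := MonoidHom.toAdditive Abelianization.of
  have hof' : Function.Surjective of' := fun a => by
    obtain ⟨g, hg⟩ := QuotientGroup.mk_surjective (Additive.toMul a)
    exact ⟨Additive.ofMul g, congrArg Additive.ofMul hg⟩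
  let Q : Submodule ℤ (Additive (Abelianization G)) :=
    Submodule.span ℤ (of' '' (Additive.ofMul '' P))
  let π : Additive G →+ (Additive (Abelianization G) ⧸ Q) := Q.mkQ.toAddMonoidHom.comp of'
  have hπ : Function.Surjective π := (Submodule.mkQ_surjective Q).comp hof'
  have hπP : ∀ γ ∈ P, π (Additive.ofMul γ) = 0 := fun γ hγ =>
    (Submodule.Quotient.mk_eq_zero Q).2 (Submodule.subset_span ⟨_, ⟨γ, hγ, rfl⟩, rfl⟩)
  have hfgA : Module.Finite ℤ (Additive (Abelianization G) ⧸ Q) := by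
    rw [Module.Finite.iff_addGroup_fg]
    exact AddGroup.fg_of_surjective hπ
  let T : Submodule ℤ (Additive (Abelianization G) ⧸ Q) := Submodule.torsion ℤ _
  -- an exponent of the torsion
  obtain ⟨e, he0, he⟩ : ∃ e : ℕ, e ≠ 0 ∧ ∀ t ∈ T, e • t = 0 := by
    have hT : Module.IsTorsion ℤ T := Submodule.torsion_isTorsion
    obtain ⟨a, ha, ha0⟩ := Submodule.annihilator_top_inter_nonZeroDivisors hT
    have ha0' : a ≠ 0 := nonZeroDivisors.ne_zero ha0
    refine ⟨a.natAbs, Int.natAbs_ne_zero.2 ha0', fun t ht => ?_⟩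
    have h1 : a • (⟨t, ht⟩ : T) = 0 := Submodule.mem_annihilator.1 ha _ Submodule.mem_top
    have h2 : a • t = 0 := congrArg Subtype.val h1
    rcases Int.natAbs_eq a with h | h
    · rw [h, natCast_zsmul] at h2
      exact h2
    · rw [h, neg_smul, natCast_zsmul, neg_eq_zero] at h2
      exact h2
  have hTF : NoZeroSMulDivisors ℤ ((Additive (Abelianization G) ⧸ Q) ⧸ T) := by
    refine ⟨fun {c x} hcx => ?_⟩
    by_cases hc : c = 0
    · exact Or.inl hc
    · right
      have hx : x ∈ Submodule.torsion ℤ ((Additive (Abelianization G) ⧸ Q) ⧸ T) :=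
        (Submodule.mem_torsion_iff x).2 ⟨⟨c, mem_nonZeroDivisors_of_ne_zero hc⟩, hcx⟩
      rw [Submodule.QuotientTorsion.torsion_eq_bot] at hx
      exact (Submodule.mem_bot ℤ).1 hx
  let x : Additive G →+ ((Additive (Abelianization G) ⧸ Q) ⧸ T) := T.mkQ.toAddMonoidHom.comp π
  refine ⟨e, he0, fun m ψ hψ => ?_⟩
  -- `ψ` factors through `A`
  let ψ₂ : Additive (Abelianization G) →+ ZMod m :=
    MonoidHom.toAdditiveLeft (Abelianization.lift (AddMonoidHom.toMultiplicativeRight ψ))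
  have hψ₂ : ∀ g : Additive G, ψ₂ (of' g) = ψ g := fun g => rfl
  have hQ : Q ≤ LinearMap.ker ψ₂.toIntLinearMap := by
    refine Submodule.span_le.2 ?_
    rintro _ ⟨_, ⟨γ, hγ, rfl⟩, rfl⟩
    exact (hψ₂ _).trans (hψ γ hγ)
  let ψbar : (Additive (Abelianization G) ⧸ Q) →ₗ[ℤ] ZMod m := Q.liftQ ψ₂.toIntLinearMap hQ
  have hψbar : ∀ g : Additive G, ψbar (π g) = ψ g := fun g => rfl
  have hker : ∀ g, x g = 0 → (e • ψ) g = 0 := by
    intro g hg
    have h1 : π g ∈ T := (Submodule.Quotient.mk_eq_zero T).1 hg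
    rw [AddMonoidHom.nsmul_apply, ← hψbar g, ← map_nsmul, he _ h1, map_zero]
  obtain ⟨φ', hφ'⟩ := Fermat.Agent.S41.H16.exists_range_lift_of_ker_le x m (e • ψ) hker
  refine ⟨φ'.comp x.rangeRestrict, fun γ hγ => ?_, hφ'⟩
  have h2 : x.rangeRestrict (Additive.ofMul γ) = 0 := by
    apply Subtype.ext
    show T.mkQ (π (Additive.ofMul γ)) = 0
    rw [hπP γ hγ, map_zero]
  rw [AddMonoidHom.comp_apply, h2, map_zero]

/-- **(LIFT)** for `Γ₀(N)`: a bounded multiple of every parabolic homomorphism modulo `m` is the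
reduction of an integral parabolic homomorphism. -/
theorem exists_exponent_lift (N : ℕ) [NeZero N] :
    ∃ e : ℕ, e ≠ 0 ∧ ∀ (m : ℕ) (ψ : Additive (Gamma0 N) →+ ZMod m),
      IsParabolicHom (Gamma0 N) ψ →
      ∃ φ : ↥(parabolicHoms ℤ (Gamma0 N) ℤ),
        Fermat.Agent.S42.H96.redHom N m (φ : Additive (Gamma0 N) →+ ℤ) = e • ψ := by
  have : Group.FG (Gamma0 N) := Fermat.Agent.S22.H75.fg_Gamma0 N
  obtain ⟨e, he0, he⟩ := exists_exponent_lift_of_fg (Gamma0 N)
    {γ : Gamma0 N | ((γ : Matrix.SpecialLinearGroup (Fin 2) ℤ) :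
      Matrix (Fin 2) (Fin 2) ℤ).trace ^ 2 = 4}
  refine ⟨e, he0, fun m ψ hψ => ?_⟩
  obtain ⟨φ, hφP, hφ⟩ := he m ψ (fun γ hγ => hψ γ hγ)
  exact ⟨⟨φ, fun γ hγ => hφP γ hγ⟩, hφ⟩

end Fermat.Agent.S35.H75
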