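/-
S35-ALG, route (a) of (NP2) (helper75): restriction of places along a field embedding.

`dvd_ord_map_of_forall_dvd`: let `i : F →+* F'` be a homomorphism of function fields mapping the
constants `K` of `F` into the constants `K'` of `F'`, and `u ∈ F` with `m ∣ w.ord u` at EVERY
place `w` of `F / K`.  Then `m ∣ v.ord (i u)` at every place `v` of `F' / K'`.

Proof.  `o := v.ord ∘ i` is an additive valuation of `F`, nonnegative on `K`.  If it is trivial
then `o u = 0`; otherwise its valuation ring is a place `w` of `F / K` and `o = e · w.ord`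
(helper52's landed `IsAddVal.exists_place_ord_eq`).
-/
import Mathlib
import Fermat.Agent.S24.H52.AddVal

set_option autoImplicit false

open AlgebraicCurve

namespace Fermat.Agent.S35.H75

open Fermat.Agent.S24.H52

variable {K F K' F' : Type*} [Field K] [Field F] [Algebra K F] [Field K'] [Field F']
  [Algebra K' F']

/-- The composite of a place with a field homomorphism is an additive valuation. -/
theorem isAddVal_ord_comp (i : F →+* F') (v : Place K' F') : IsAddVal (fun f : F => v.ord (i f)) where
  map_one := by simp
  map_mul := fun {f g} hf hg => by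
    simp only [map_mul]
    exact v.ord_mul ((map_ne_zero i).mpr hf) ((map_ne_zero i).mpr hg)
  map_add := fun {f g} hf hg hfg => by
    simp only [map_add]
    exact (isAddVal_ord v).map_add ((map_ne_zero i).mpr hf) ((map_ne_zero i).mpr hg)
      (by rw [← map_add]; exact (map_ne_zero i).mpr hfg)

/-- **Restriction of places.**  Divisibility of the orders at all places of `F / K` is inherited
by the orders at all places of `F' / K'` along a homomorphism `F → F'` mapping `K` into `K'`. -/
theorem dvd_ord_map_of_forall_dvd (i : F →+* F')
    (hi : ∀ a : K, ∃ b : K', i (algebraMap K F a) = algebraMap K' F' b)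
    (v : Place K' F') (m : ℤ) (u : F) (h : ∀ w : Place K F, m ∣ w.ord u) : m ∣ v.ord (i u) := by
  by_cases hu : u = 0
  · rw [hu, map_zero, Place.ord_zero]
    exact dvd_zero m
  have ho := isAddVal_ord_comp (K' := K') i v
  have hK : ∀ a : K, algebraMap K F a ≠ 0 → 0 ≤ v.ord (i (algebraMap K F a)) := by
    intro a _
    obtain ⟨b, hb⟩ := hi a
    rw [hb]
    exact ord_nonneg_of_mem v (v.algebraMap_mem' b)
  by_cases hneg : ∃ f : F, f ≠ 0 ∧ v.ord (i f) < 0
  · obtain ⟨e, -, he⟩ := ho.exists_place_ord_eq hK hneg
    have h1 : v.ord (i u) = e * (ho.place hK hneg).ord u := he u hu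
    rw [h1]
    exact Dvd.dvd.mul_left (h _) e
  · push Not at hneg
    have h1 := hneg u hu
    have h2 := hneg u⁻¹ (inv_ne_zero hu)
    rw [map_inv₀, v.ord_inv] at h2
    have h3 : v.ord (i u) = 0 := by omega
    rw [h3]
    exact dvd_zero m

end Fermat.Agent.S35.H75
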