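/-
S35-ALG, route (a) of (NP2) (helper75): SURJECTIVITY of the Kummer relation of the AJ core.

`rel_surj`: every class `x ∈ JZero N` killed by `m ≠ 0` is in relation `Rel N m ψ x` with some
`ψ ∈ Hp N m` (a parabolic homomorphism `Γ₀(N) → ℤ/m` killing the elements of finite order).
Together with the landed injectivity this identifies `J₀(N)[m]` with `Hp N m`.

Proof (no new analysis; all leaves of Program A are used as black boxes).
`x = [D]`, `m D = div u`, `u = evF P / evF Q`, `C := P · Q^(m-1)`: then `m ∣ ord_v (evF C)` at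
every place of `F / ℚ̄`.  Let `g := iotaF (evF C) ∈ M_ℂ` be the base change.
* `PC N m g` (divisibility at the places of `M_ℂ / ℂ`) by restriction of places
  (`dvd_ord_map_of_forall_dvd`);
* `LeafAN1`: `g` has a root datum over `ℂ` with some character `ψ`;
* `LeafAN6`: a polynomial `C₂` over `ℚ̄` with a root datum `RootQ N m ψ C₂`;
* `LeafDict` + `LeafAN2`: `g = g₂ · w ^ m` in `M_ℂ`; `LeafDesc`: `evF C = evF C₂ · w₀ ^ m` in `F`;
* so `(C₂, D + div (evF Q / w₀))` witnesses `Rel N m ψ x`; `ψ ∈ Hp N m` by helper92's landed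
  converse of (ORD), `mem_Hp_of_rootQ`.
-/
import Mathlib
import Fermat.Agent.S42.H96.Final
import Fermat.Agent.S30.H92.ConvEll
import Fermat.Agent.S35.H75.PlaceRestrict

set_option autoImplicit false

open UpperHalfPlane CongruenceSubgroup ModularCurve ModularCurve.Period AlgebraicCurve
open Fermat.Agent.S24 Fermat.Agent.S42.H96
open scoped MatrixGroups Manifold

noncomputable section

namespace Fermat.Agent.S35.H75

/-- **(SURJ)** every `m`-torsion class of `J₀(N)(ℚ̄)` is in Kummer relation with a homomorphism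
`ψ ∈ Hp N m`. -/
theorem rel_surj (N m : ℕ) [NeZero N] (hm : m ≠ 0) (x : JZero N) (hx : m • x = 0) :
    ∃ ψ ∈ Hp N m, Rel N m ψ x := by
  classical
  have hPD := Fermat.Agent.S18.H13.hasPrincipalDivisors_FF N
  obtain ⟨D, rfl⟩ := Pic0.mk_surjective x
  -- `m • D` is principal
  have h1 : m • D ∈ (Divisor.principal (K := Kbar) (F := FF N)).addSubgroupOf
      (Divisor.degZero (K := Kbar) (F := FF N)) := by
    have h2 : Pic0.mk (m • D) = 0 := hx
    exact (QuotientAddGroup.eq_zero_iff _).mp h2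
  rw [AddSubgroup.mem_addSubgroupOf] at h1
  obtain ⟨u, hu, hDu⟩ := h1
  have hDu' : ∀ v : Place Kbar (FF N), v.ord u = (m : ℤ) * (D : Divisor Kbar (FF N)) v := by
    intro v
    rw [← hDu v, AddSubgroup.coe_nsmul, Finsupp.smul_apply, nsmul_eq_mul]
  -- a polynomial representative
  obtain ⟨P, Q, hQ, rfl⟩ := evF_frac N u
  obtain ⟨k, rfl⟩ : ∃ k, m = k + 1 := Nat.exists_eq_succ_of_ne_zero hm
  set C : MvPolynomial (N.divisors) Kbar := P * Q ^ k with hCdef
  have hCev : evF N C = (evF N P / evF N Q) * evF N Q ^ (k + 1) := by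
    rw [hCdef, map_mul, map_pow, pow_succ]
    field_simp
  have hC : evF N C ≠ 0 := by
    rw [hCev]
    exact mul_ne_zero hu (pow_ne_zero _ hQ)
  have hdvd : ∀ v : Place Kbar (FF N), ((k + 1 : ℕ) : ℤ) ∣ v.ord (evF N C) := by
    intro v
    rw [hCev, v.ord_mul hu (pow_ne_zero _ hQ), hDu' v, ← zpow_natCast, Place.ord_zpow]
    exact Dvd.intro _ (mul_add _ _ _)
  -- the base change and its root datum over `ℂ`
  set g : MC N := Fermat.Agent.S29.H37.iotaF N (evF N C) with hgdef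
  have hg : g ≠ 0 := (map_ne_zero (Fermat.Agent.S29.H37.iotaF N)).mpr hC
  have hPC : PC N (k + 1) g := fun v _ =>
    dvd_ord_map_of_forall_dvd (Fermat.Agent.S29.H37.iotaF N)
      (fun a => ⟨iota a, Fermat.Agent.S29.H37.iotaF_algebraMap N a⟩) v _ _ hdvd
  obtain ⟨ψ, hroot⟩ := Fermat.Agent.S42.H5.leafAN1 N (k + 1) hm g hg hPC
  have hbase : IsBase N (evF N C) g := rfl
  -- a root datum over `ℚ̄`
  obtain ⟨C₂, hC₂, hroot₂⟩ :=
    Fermat.Agent.S42.H20.leafAN6 N (k + 1) hm ψ (evF N C) g hbase hg hroot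
  obtain ⟨hbase₂, hTh₂⟩ := Fermat.Agent.S29.H37.leafDict N C₂
  have hg₂eq : evC N (MvPolynomial.map iota C₂) = Fermat.Agent.S29.H37.iotaF N (evF N C₂) :=
    Subtype.ext hbase₂
  have hg₂ : Fermat.Agent.S29.H37.iotaF N (evF N C₂) ≠ 0 :=
    (map_ne_zero (Fermat.Agent.S29.H37.iotaF N)).mpr hC₂
  have hr₂ : HasRootC N (k + 1) ψ (Fermat.Agent.S29.H37.iotaF N (evF N C₂)) := by
    obtain ⟨G, hG, hGp, hGc⟩ := hroot₂
    refine ⟨MvPolynomial.map iota C₂, 1, G, ?_, ?_, hG, fun τ => ?_, hGc⟩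
    · rw [map_one]; exact one_ne_zero
    · rw [map_one, one_pow, mul_one, hg₂eq]
    · rw [hGp τ, hTh₂]
  obtain ⟨w, hw, hgw⟩ := Fermat.Agent.S29.H37.leafAN2 N (k + 1) hm ψ g _ hg hg₂ hroot hr₂
  -- descent of the `m`-th power
  have hwpow : w ^ (k + 1) = Fermat.Agent.S29.H37.iotaF N (evF N C / evF N C₂) := by
    rw [map_div₀, eq_div_iff hg₂, mul_comm]
    exact hgw.symm
  have hbase' : IsBase N (evF N C / evF N C₂) (w ^ (k + 1)) := by
    rw [hwpow]
    rfl
  obtain ⟨w₀, hw₀⟩ :=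
    Fermat.Agent.S42.H59.leafDesc N (k + 1) (evF N C / evF N C₂) (w ^ (k + 1)) w hbase' rfl
  have hw₀0 : w₀ ≠ 0 := by
    rintro rfl
    rw [zero_pow (Nat.succ_ne_zero k)] at hw₀
    exact div_ne_zero hC hC₂ hw₀
  -- the divisor of `evF C₂`
  have hQw : evF N Q / w₀ ≠ 0 := div_ne_zero hQ hw₀0
  obtain ⟨E, hE, hEdeg⟩ := HasPrincipalDivisors.exists_divisor (K := Kbar) (evF N Q / w₀) hQw
  set D₂ : Divisor.degZero (K := Kbar) (F := FF N) := D + ⟨E, hEdeg⟩ with hD₂def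
  have hC₂ev : evF N C₂ = (evF N P / evF N Q) * (evF N Q / w₀) ^ (k + 1) := by
    have h3 : evF N C = evF N C₂ * w₀ ^ (k + 1) := by
      rw [← hw₀]
      field_simp
    rw [hCev] at h3
    rw [div_pow, ← mul_div_assoc, h3, mul_div_cancel_right₀ _ (pow_ne_zero _ hw₀0)]
  have hD₂ : ∀ v : Place Kbar (FF N),
      v.ord (evF N C₂) = ((k + 1 : ℕ) : ℤ) * (D₂ : Divisor Kbar (FF N)) v := by
    intro v
    rw [hC₂ev, v.ord_mul hu (pow_ne_zero _ hQw), hDu' v, ← zpow_natCast, Place.ord_zpow, ← hE v,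
      hD₂def, AddSubgroup.coe_add, Finsupp.add_apply, mul_add]
  have hx₂ : Pic0.mk D = Pic0.mk D₂ := by
    show (QuotientAddGroup.mk D : Pic0 Kbar (FF N)) = QuotientAddGroup.mk D₂
    rw [QuotientAddGroup.eq, hD₂def, neg_add_cancel_left, AddSubgroup.mem_addSubgroupOf]
    exact ⟨evF N Q / w₀, hQw, hE⟩
  exact ⟨ψ, Fermat.Agent.S30.H92.mem_Hp_of_rootQ N (k + 1) hm ψ C₂ hC₂ hroot₂
    (fun v => ⟨_, hD₂ v⟩), C₂, D₂, hC₂, hD₂, hx₂, hroot₂⟩

end Fermat.Agent.S35.H75
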