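/-
S35-ALG, (NP2) by route (a) (helper75): on ALL torsion points of `J₀(N)(ℚ̄)` the Hecke operators
`T_ℓ` (`ℓ ∤ N`, `ℓ ∉ S`) satisfy, up to a bounded exponent, every relation which holds in the Hecke
algebra of cusp forms.

`exists_nsmul_eq_zero_of_snd_eq_zero`: there is `e ≠ 0` such that for every element `r = (r₁, r₂)`
of the ring generated by the pairs `(T_ℓ on J₀(N), T_ℓ ∈ heckeAlgebra N 2 S)` with `r₂ = 0`:
`e • r₁ x = 0` for every torsion point `x`.
`exists_pow_smul_eq_zero_of_snd_eq_zero`: the `p`-primary form `p ^ a • r₁ x = 0` for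
`x ∈ J₀(N)[p ^ n]`, with `a` independent of `n`.

Proof.  For a modulus `m ≠ 0`, every `r ∈ Rr` comes with an endomorphism `b` of
`Hom(Γ₀(N), ℤ/m)` such that (1) `Rel ψ x → Rel (b ψ) (r₁ x)` (LeafHecke + LeafRelAdd) and
(2) `b (φ mod m) = (Φ(r₂) φ) mod m` for `φ` in the integral parabolic lattice, `Φ` helper40's
landed Hecke action on the lattice (naturality of `heckeHom`).  If `r₂ = 0` and `m • x = 0`:
`Rel ψ x` for some `ψ ∈ Hp N m` (SURJ), `e • ψ = φ mod m` (LIFT), so `Rel 0 (r₁ (e • x))`, hence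
`e • r₁ x = 0` (the relation is injective in the class).
-/
import Mathlib
import Fermat.Agent.S35.H75.Surj
import Fermat.Agent.S35.H75.Lift
import Fermat.Agent.S31.H40.HeckeLattice
import Fermat.Agent.S35.H90.Inst

set_option autoImplicit false

open CongruenceSubgroup ModularCurve ModularCurve.Period AlgebraicCurve CuspForm
open Fermat.Agent.S16.H75 (heckeHom heckeHom_comp)
open Fermat.Agent.S42.H96
open Fermat.Agent.S30.H86 (Rr)
open Fermat.Agent.S35.H90 (GoodIdx TJ TH)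

noncomputable section

namespace Fermat.Agent.S35.H75

/-- The Kummer relation is stable under negation. -/
theorem rel_neg {N m : ℕ} (hm : m ≠ 0) {ψ : Additive (Gamma0 N) →+ ZMod m} {x : JZero N}
    (h : Rel N m ψ x) : Rel N m (-ψ) (-x) := by
  obtain ⟨k, rfl⟩ := Nat.exists_eq_succ_of_ne_zero hm
  have h1 := rel_nsmul (leafRelAdd N (k + 1) hm) h k
  have e1 : k • ψ = -ψ := by
    have h2 : (k + 1) • ψ = 0 := nsmul_hom_eq_zero ψ
    rw [succ_nsmul] at h2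
    exact eq_neg_of_add_eq_zero_left h2
  have e2 : k • x = -x := by
    have h2 : (k + 1) • x = 0 := rel_torsion h
    rw [succ_nsmul] at h2
    exact eq_neg_of_add_eq_zero_left h2
  rwa [e1, e2] at h1

/-- Reduction modulo `m` on the integral parabolic lattice, as an additive map. -/
def redLat (N m : ℕ) : ↥(parabolicHoms ℤ (Gamma0 N) ℤ) →+ (Additive (Gamma0 N) →+ ZMod m) :=
  (AddMonoidHom.compHom (Int.castAddHom (ZMod m))).comp
    (parabolicHoms ℤ (Gamma0 N) ℤ).subtype.toAddMonoidHom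

theorem redLat_apply (N m : ℕ) (φ : ↥(parabolicHoms ℤ (Gamma0 N) ℤ)) :
    redLat N m φ = redHom N m (φ : Additive (Gamma0 N) →+ ℤ) := rfl

/-- Every element of the ring generated by the Hecke pairs comes with an endomorphism of
`Hom(Γ₀(N), ℤ/m)` compatible with the Kummer relation and with the Hecke action on the lattice. -/
theorem exists_end_of_mem_Rr (N : ℕ) [NeZero N] (S : Finset ℕ) (m : ℕ) (hm : m ≠ 0)
    {r : AddMonoid.End (JZero N) × heckeAlgebra N 2 (↑S : Set ℕ)}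
    (hr : r ∈ Rr (TJ N S) (TH N S)) :
    ∃ b : AddMonoid.End (Additive (Gamma0 N) →+ ZMod m),
      (∀ (ψ : Additive (Gamma0 N) →+ ZMod m) (x : JZero N),
        Rel N m ψ x → Rel N m (b ψ) (r.1 x)) ∧
      ∀ φ : ↥(parabolicHoms ℤ (Gamma0 N) ℤ),
        b (redLat N m φ) =
          redLat N m (Fermat.Agent.S31.H40.heckeAction N (↑S : Set ℕ) r.2 φ) := by
  refine Subring.closure_induction
    (p := fun r _ => ∃ b : AddMonoid.End (Additive (Gamma0 N) →+ ZMod m),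
      (∀ (ψ : Additive (Gamma0 N) →+ ZMod m) (x : JZero N),
        Rel N m ψ x → Rel N m (b ψ) (r.1 x)) ∧
      ∀ φ : ↥(parabolicHoms ℤ (Gamma0 N) ℤ),
        b (redLat N m φ) =
          redLat N m (Fermat.Agent.S31.H40.heckeAction N (↑S : Set ℕ) r.2 φ))
    ?_ ?_ ?_ ?_ ?_ ?_ hr
  · -- generators
    rintro _ ⟨i, rfl⟩
    refine ⟨heckeHom N ⟨i.1, i.2.1⟩ (ZMod m), fun ψ x h =>
      Fermat.Agent.S42.H13.leafHecke N m hm ⟨i.1, i.2.1⟩ i.2.2.1 ψ x h, fun φ => ?_⟩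
    have h1 : ((Fermat.Agent.S31.H40.heckeAction N (↑S : Set ℕ) (TH N S i) φ :
        ↥(parabolicHoms ℤ (Gamma0 N) ℤ)) : Additive (Gamma0 N) →+ ℤ) =
        heckeHom N ⟨i.1, i.2.1⟩ ℤ (φ : Additive (Gamma0 N) →+ ℤ) :=
      Fermat.Agent.S31.H40.heckeAction_T_apply N (↑S : Set ℕ) i.2.1 i.2.2.1 i.2.2.2 φ
    show heckeHom N ⟨i.1, i.2.1⟩ (ZMod m) (redHom N m (φ : Additive (Gamma0 N) →+ ℤ)) =
      redHom N m ((Fermat.Agent.S31.H40.heckeAction N (↑S : Set ℕ) (TH N S i) φ :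
        ↥(parabolicHoms ℤ (Gamma0 N) ℤ)) : Additive (Gamma0 N) →+ ℤ)
    rw [h1]
    exact heckeHom_comp N _ (Int.castAddHom (ZMod m)) _
  · -- zero
    refine ⟨0, fun ψ x _ => rel_zero N m, fun φ => ?_⟩
    rw [Prod.snd_zero, map_zero, LinearMap.zero_apply, map_zero]
    rfl
  · -- one
    refine ⟨1, fun ψ x h => h, fun φ => ?_⟩
    rw [Prod.snd_one, map_one]
    rfl
  · -- add
    rintro r s - - ⟨b, hb1, hb2⟩ ⟨c, hc1, hc2⟩
    refine ⟨b + c, fun ψ x h => leafRelAdd N m hm _ _ _ _ (hb1 ψ x h) (hc1 ψ x h), fun φ => ?_⟩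
    rw [Prod.snd_add, map_add, LinearMap.add_apply, map_add, ← hb2, ← hc2]
    rfl
  · -- neg
    rintro r - ⟨b, hb1, hb2⟩
    refine ⟨-b, fun ψ x h => rel_neg hm (hb1 ψ x h), fun φ => ?_⟩
    rw [Prod.snd_neg, map_neg, LinearMap.neg_apply, map_neg, ← hb2]
    rfl
  · -- mul
    rintro r s - - ⟨b, hb1, hb2⟩ ⟨c, hc1, hc2⟩
    refine ⟨b * c, fun ψ x h => hb1 _ _ (hc1 ψ x h), fun φ => ?_⟩
    rw [Prod.snd_mul, map_mul, Module.End.mul_apply, ← hb2, ← hc2]
    rfl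

/-- **(NP2), modulus-free form.**  There is `e ≠ 0` such that every element of the ring generated
by the Hecke pairs whose Hecke-algebra component vanishes kills `e •` every torsion point. -/
theorem exists_nsmul_eq_zero_of_snd_eq_zero (N : ℕ) [NeZero N] (S : Finset ℕ) :
    ∃ e : ℕ, e ≠ 0 ∧ ∀ r ∈ Rr (TJ N S) (TH N S), r.2 = 0 →
      ∀ m : ℕ, m ≠ 0 → ∀ x : JZero N, m • x = 0 → e • r.1 x = 0 := by
  obtain ⟨e, he0, he⟩ := exists_exponent_lift N
  refine ⟨e, he0, fun r hr hr2 m hm x hx => ?_⟩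
  obtain ⟨b, hb1, hb2⟩ := exists_end_of_mem_Rr N S m hm hr
  obtain ⟨ψ, hψ, hrel⟩ := rel_surj N m hm x hx
  obtain ⟨φ, hφ⟩ := he m ψ hψ.1
  have h1 : Rel N m (e • ψ) (e • x) := rel_nsmul (leafRelAdd N m hm) hrel e
  have h2 := hb1 _ _ h1
  have h3 : b (e • ψ) = 0 := by
    rw [← hφ, ← redLat_apply, hb2 φ, hr2, map_zero, LinearMap.zero_apply, map_zero]
  rw [h3] at h2
  have h4 := relZeroLeft_of_leaves hm (Fermat.Agent.S29.H37.leafDict N)
    (Fermat.Agent.S29.H37.leafAN2 N m hm) (Fermat.Agent.S42.H59.leafDesc N m) _ h2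
  rw [map_nsmul] at h4
  exact h4

/-- **(NP2).**  For a prime `p` there is an exponent `a` such that every element `r` of the ring
generated by the Hecke pairs `(T_ℓ on J₀(N), T_ℓ ∈ heckeAlgebra N 2 S)` with vanishing
Hecke-algebra component satisfies `p ^ a • r.1 x = 0` for all `x ∈ J₀(N)[p ^ n]`, all `n`. -/
theorem exists_pow_smul_eq_zero_of_snd_eq_zero (N : ℕ) [NeZero N] (p : ℕ) (hp : p.Prime)
    (S : Finset ℕ) :
    ∃ a : ℕ, ∀ r ∈ Rr (TJ N S) (TH N S), r.2 = 0 →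
      ∀ (n : ℕ) (x : JZero N), p ^ n • x = 0 → p ^ a • r.1 x = 0 := by
  obtain ⟨e, he0, he⟩ := exists_nsmul_eq_zero_of_snd_eq_zero N S
  refine ⟨padicValNat p e, fun r hr hr2 n x hx => ?_⟩
  have h1 : e • r.1 x = 0 := he r hr hr2 (p ^ n) (pow_ne_zero n hp.ne_zero) x hx
  have h2 : p ^ n • r.1 x = 0 := by rw [← map_nsmul, hx, map_zero]
  have d1 : addOrderOf (r.1 x) ∣ e := addOrderOf_dvd_of_nsmul_eq_zero h1
  have d2 : addOrderOf (r.1 x) ∣ p ^ n := addOrderOf_dvd_of_nsmul_eq_zero h2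
  obtain ⟨j, -, hj⟩ := (Nat.dvd_prime_pow hp).1 d2
  have hfact : Fact p.Prime := ⟨hp⟩
  have d3 : p ^ j ∣ e := hj ▸ d1
  have hj' : j ≤ padicValNat p e := (padicValNat_dvd_iff_le he0).1 d3
  have d4 : addOrderOf (r.1 x) ∣ p ^ padicValNat p e := by
    rw [hj]
    exact pow_dvd_pow p hj'
  exact addOrderOf_dvd_iff_nsmul_eq_zero.1 d4

end Fermat.Agent.S35.H75
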