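/-
S35-ALG (helper75): the operator identity
  `(σ + q σ⁻¹)² - (q + 1)² = σ⁻² (σ⁴ - (q² + 1) σ² + q²)`
for a group `G` acting on an abelian group `J` by additive automorphisms.
-/
import Mathlib

set_option autoImplicit false

namespace Fermat.Agent.S35.H75

/-- `(σ + q σ⁻¹)² - (q + 1)² = σ⁻² (σ⁴ - (q² + 1) σ² + q²)` on a `G`-module `J`. -/
theorem smul_add_inv_sq_sub {G J : Type*} [Group G] [AddCommGroup J] [DistribMulAction G J]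
    (σ : G) (q : ℕ) (y : J) :
    (σ • (σ • y + ((q : ℕ) : ℤ) • σ⁻¹ • y) +
        ((q : ℕ) : ℤ) • σ⁻¹ • (σ • y + ((q : ℕ) : ℤ) • σ⁻¹ • y)) -
        ((((q : ℕ) : ℤ) + 1) ^ 2) • y =
      σ⁻¹ • σ⁻¹ • (σ • σ • σ • σ • y - (q ^ 2 + 1) • σ • σ • y + q ^ 2 • y) := by
  have e1 : ∀ (d : ℤ) (v : J), σ • (d • v) = d • (σ • v) := fun d v => smul_comm σ d v
  have e2 : ∀ (d : ℤ) (v : J), σ⁻¹ • (d • v) = d • (σ⁻¹ • v) := fun d v => smul_comm σ⁻¹ d v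
  have e3 : ∀ (d : ℕ) (v : J), σ⁻¹ • (d • v) = d • (σ⁻¹ • v) := fun d v => smul_comm σ⁻¹ d v
  have hL : σ • (σ • y + ((q : ℕ) : ℤ) • σ⁻¹ • y) +
        ((q : ℕ) : ℤ) • σ⁻¹ • (σ • y + ((q : ℕ) : ℤ) • σ⁻¹ • y) =
      σ • σ • y + ((q : ℕ) : ℤ) • y + ((q : ℕ) : ℤ) • (y +
        ((q : ℕ) : ℤ) • σ⁻¹ • σ⁻¹ • y) := by
    rw [smul_add, smul_add, e1, e2, smul_inv_smul, inv_smul_smul]
  have hR : σ⁻¹ • σ⁻¹ • (σ • σ • σ • σ • y - (q ^ 2 + 1) • σ • σ • y + q ^ 2 • y) =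
      σ • σ • y - (q ^ 2 + 1) • y + q ^ 2 • σ⁻¹ • σ⁻¹ • y := by
    rw [smul_add, smul_add, smul_sub, smul_sub, e3, e3, e3, e3, inv_smul_smul, inv_smul_smul,
      inv_smul_smul, inv_smul_smul]
  rw [hL, hR]
  generalize σ • σ • y = u
  generalize σ⁻¹ • σ⁻¹ • y = v
  rw [← natCast_zsmul y, ← natCast_zsmul v]
  push_cast
  module

end Fermat.Agent.S35.H75
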