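/-
S35-ALG (helper75): polynomial pairs lie in the ring `Rr` of Hecke pairs.

For a level `L` and a finite set `S` containing the primes of `L`, a polynomial `p` in the
variables `ℓ ∉ S` gives the pair
  `(p(T_ℓ) on J₀(L)(ℚ̄), p(T_ℓ) ∈ heckeAlgebra L 2 S)`,
and this pair lies in helper86's ring `Rr (TJ L S) (TH L S)` generated by the Hecke pairs
(`pair_mem_Rr`).  The first component is the Prelude evaluation `heckeEvalBar` of the renamed
polynomial, the second is helper47's `evalOut`.
-/
import Mathlib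
import Fermat.Agent.S35.H90.Inst
import Fermat.Agent.S35.H47.NP1
import Fermat.Agent.S29.H60.Commute

set_option autoImplicit false

open CongruenceSubgroup ModularCurve CuspForm
open Fermat.Agent.S30.H86 (Rr gen_mem_Rr)
open Fermat.Agent.S35.H90 (GoodIdx TJ TH)
open Fermat.Agent.S35.H47 (outPrimes evalOut evalOut_X)

noncomputable section

namespace Fermat.Agent.S35.H75

variable (L : ℕ) [NeZero L] (S : Finset ℕ)
  (hL : ∀ j : outPrimes (↑S : Set ℕ), ¬ ((j : Nat.Primes) : ℕ) ∣ L)

/-- The pair of evaluations of a polynomial in the variables `ℓ ∉ S`, as a ring homomorphism. -/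
def pairHom : MvPolynomial (outPrimes (↑S : Set ℕ)) ℤ →+*
    AddMonoid.End (JZero L) × heckeAlgebra L 2 (↑S : Set ℕ) :=
  RingHom.prod
    ((addMonoidEndRingEquivInt (JZero L)).symm.toRingHom.comp
      ((heckeEvalBar (Fermat.Agent.S29.H60.heckeOperatorsCommuteBar L)).comp
        (MvPolynomial.rename ((↑) : outPrimes (↑S : Set ℕ) → Nat.Primes) :
          MvPolynomial (outPrimes (↑S : Set ℕ)) ℤ →ₐ[ℤ] MvPolynomial Nat.Primes ℤ).toRingHom))
    (evalOut L (↑S : Set ℕ) hL).toRingHom

theorem pairHom_fst_apply (p : MvPolynomial (outPrimes (↑S : Set ℕ)) ℤ) (x : JZero L) :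
    (pairHom L S hL p).1 x =
      heckeEvalBar (Fermat.Agent.S29.H60.heckeOperatorsCommuteBar L)
        (MvPolynomial.rename ((↑) : outPrimes (↑S : Set ℕ) → Nat.Primes) p) x := rfl

theorem pairHom_snd (p : MvPolynomial (outPrimes (↑S : Set ℕ)) ℤ) :
    (pairHom L S hL p).2 = evalOut L (↑S : Set ℕ) hL p := rfl

theorem pairHom_X (j : outPrimes (↑S : Set ℕ)) :
    pairHom L S hL (MvPolynomial.X j) =
      (TJ L S ⟨((j : Nat.Primes) : ℕ), (j : Nat.Primes).2, hL j, j.2⟩,
        TH L S ⟨((j : Nat.Primes) : ℕ), (j : Nat.Primes).2, hL j, j.2⟩) := by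
  refine Prod.ext ?_ ?_
  · refine AddMonoidHom.ext fun x => ?_
    show heckeEvalBar (Fermat.Agent.S29.H60.heckeOperatorsCommuteBar L)
        (MvPolynomial.rename ((↑) : outPrimes (↑S : Set ℕ) → Nat.Primes) (MvPolynomial.X j)) x =
      heckeOperatorBar L ⟨((j : Nat.Primes) : ℕ), (j : Nat.Primes).2⟩ x
    rw [MvPolynomial.rename_X]
    have h1 := heckeEvalBar_heckeGen (Fermat.Agent.S29.H60.heckeOperatorsCommuteBar L)
      (j : Nat.Primes)
    rw [ModularCurve.heckeGen] at h1
    rw [h1]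
    rfl
  · exact evalOut_X L (↑S : Set ℕ) hL j

/-- **Polynomial pairs lie in `Rr`.** -/
theorem pair_mem_Rr (p : MvPolynomial (outPrimes (↑S : Set ℕ)) ℤ) :
    pairHom L S hL p ∈ Rr (TJ L S) (TH L S) := by
  induction p using MvPolynomial.induction_on with
  | C a =>
    rw [← MvPolynomial.algebraMap_eq, eq_intCast, map_intCast]
    exact intCast_mem _ a
  | add p q hp hq =>
    rw [map_add]
    exact add_mem hp hq
  | mul_X p j hp =>
    rw [map_mul, pairHom_X]
    exact mul_mem hp (gen_mem_Rr _)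

end Fermat.Agent.S35.H75
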