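/-
S35-ALG (helper75): (NEWPROJ) of the S35 top.

Level `M = N q`, `q` a prime not dividing `N`, `g` a newform of level `N q`, `S ⊇ primes(N q)`,
`chig` the eigencharacter of `g` on `heckeAlgebra (N q) 2 S`, `lam` a prime.

* `exists_newProj` (NEWPROJ): there is `r` in the ring `Rr` of Hecke pairs of level `N q` with
  `chig r.2 ≠ 0` and an exponent `a` such that `lam ^ a • r.1` maps `J₀(N q)[lam ^ n]` (every `n`)
  into the `q`-new part `ker α_* ∩ ker β_*`.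
  Proof: (NP1, helper47) a polynomial `P` in the `T_ℓ`, `ℓ ∉ S`, with `P(T) = 0` on `S₂(Γ₀(N))`
  and `chig (P(T)) ≠ 0`; (COMM, helper60) `α_* P(T^{(N q)}) = P(T^{(N)}) α_*`, same for `β_*`;
  (NP2, `NP2.lean`) `lam ^ a • P(T^{(N)})` kills `J₀(N)[lam ^ n]`.
-/
import Mathlib
import Fermat.Agent.S35.H75.RrPoly
import Fermat.Agent.S35.H75.NP2
import Fermat.Agent.S35.H47.NP1Final
import Fermat.Agent.S35.H60.CommPoly

set_option autoImplicit false

open CongruenceSubgroup ModularCurve CuspForm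
open ModularFormClass (qCoeff)
open Fermat.Agent.S30.H86 (Rr)
open Fermat.Agent.S35.H90 (GoodIdx TJ TH)
open Fermat.Agent.S35.H47 (outPrimes evalOut coe_evalOut)
open Fermat.Agent.S35.H60 (degAlpha degBeta degAlpha_heckeEvalBar degBeta_heckeEvalBar)

noncomputable section

namespace Fermat.Agent.S35.H75

/-- **(NEWPROJ).** -/
theorem exists_newProj (N q : ℕ) [NeZero N] [NeZero q] (hq : q.Prime) (hqN : ¬ q ∣ N)
    {g : CuspForm (Gamma0 (N * q)) 2} (hg : g.IsNewform) (S : Finset ℕ)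
    (hMS : ∀ r : ℕ, r.Prime → r ∣ N * q → r ∈ S)
    (chig : heckeAlgebra (N * q) 2 (↑S : Set ℕ) →+* ℂ)
    (hchig : ∀ (ℓ : ℕ) (hℓ : ℓ.Prime) (hℓM : ¬ ℓ ∣ N * q) (hℓS : ℓ ∉ (↑S : Set ℕ)),
      chig (heckeAlgebra.T hℓ hℓM hℓS) = qCoeff g ℓ)
    (lam : ℕ) (hlam : lam.Prime) :
    ∃ r ∈ Rr (TJ (N * q) S) (TH (N * q) S), chig r.2 ≠ 0 ∧ ∃ a : ℕ,
      ∀ (n : ℕ) (x : JZero (N * q)), lam ^ n • x = 0 →
        degAlpha N q (lam ^ a • r.1 x) = 0 ∧ degBeta N q (lam ^ a • r.1 x) = 0 := by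
  classical
  have hne : N ≠ N * q := by
    intro h
    have h2 : N * 1 = N * q := by rw [mul_one]; exact h
    exact hq.one_lt.ne (Nat.eq_of_mul_eq_mul_left (Nat.pos_of_ne_zero (NeZero.ne N)) h2)
  obtain ⟨P, hPsupp, hP0, h, hh, hchi⟩ :=
    Fermat.Agent.S35.H47.exists_newProj_poly_final hg S hMS chig hchig N (Dvd.intro q rfl) hne
  have hJ : outPrimes (↑S : Set ℕ) = {ℓ : Nat.Primes | (ℓ : ℕ) ∉ S} := by
    ext ℓ
    simp [outPrimes]
  rw [← hJ, MvPolynomial.supported_eq_range_rename] at hPsupp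
  obtain ⟨p, hp⟩ := hPsupp
  have hp' : MvPolynomial.rename ((↑) : outPrimes (↑S : Set ℕ) → Nat.Primes) p = P := hp
  subst hp'
  have hLM : ∀ j : outPrimes (↑S : Set ℕ), ¬ ((j : Nat.Primes) : ℕ) ∣ N * q := fun j hd =>
    j.2 (Finset.mem_coe.2 (hMS _ (j : Nat.Primes).2 hd))
  have hLN : ∀ j : outPrimes (↑S : Set ℕ), ¬ ((j : Nat.Primes) : ℕ) ∣ N := fun j hd =>
    hLM j (hd.mul_right q)
  -- the pair at level `N q`
  have hrM := pair_mem_Rr (N * q) S hLM p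
  have hrM2 : (pairHom (N * q) S hLM p).2 = h := by
    rw [pairHom_snd]
    exact Subtype.ext ((coe_evalOut (N * q) (↑S : Set ℕ) hLM p).trans hh.symm)
  -- the pair at level `N`
  have hrN := pair_mem_Rr N S hLN p
  have hrN2 : (pairHom N S hLN p).2 = 0 := by
    rw [pairHom_snd]
    have h1 : ((evalOut N (↑S : Set ℕ) hLN p : heckeAlgebra N 2 (↑S : Set ℕ)) :
        Module.End ℂ (CuspForm (Gamma0 N) 2)) = 0 := by
      rw [coe_evalOut N (↑S : Set ℕ) hLN p, hP0]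
      exact ZeroMemClass.coe_zero _
    exact ZeroMemClass.coe_eq_zero.1 h1
  obtain ⟨a, ha⟩ := exists_pow_smul_eq_zero_of_snd_eq_zero N lam hlam S
  refine ⟨pairHom (N * q) S hLM p, hrM, by rw [hrM2]; exact hchi, a, fun n x hx => ?_⟩
  -- the polynomial does not involve `T_q`
  have hqS : q ∈ S := hMS q hq (Dvd.intro_left N rfl)
  have hsupp : MvPolynomial.rename ((↑) : outPrimes (↑S : Set ℕ) → Nat.Primes) p ∈
      MvPolynomial.supported ℤ {ℓ : Nat.Primes | (ℓ : ℕ) ≠ q} := by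
    have h1 : MvPolynomial.rename ((↑) : outPrimes (↑S : Set ℕ) → Nat.Primes) p ∈
        MvPolynomial.supported ℤ (outPrimes (↑S : Set ℕ)) := by
      rw [MvPolynomial.supported_eq_range_rename]
      exact ⟨p, rfl⟩
    refine MvPolynomial.supported_mono ?_ h1
    intro ℓ hℓ
    have hℓ' : (ℓ : ℕ) ∉ (↑S : Set ℕ) := hℓ
    show (ℓ : ℕ) ≠ q
    intro hℓq
    apply hℓ'
    rw [hℓq]
    exact Finset.mem_coe.2 hqS
  have hxα : lam ^ n • degAlpha N q x = 0 := by rw [← map_nsmul, hx, map_zero]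
  have hxβ : lam ^ n • degBeta N q x = 0 := by rw [← map_nsmul, hx, map_zero]
  constructor
  · rw [map_nsmul, pairHom_fst_apply, degAlpha_heckeEvalBar N q hq _ hsupp x,
      ← pairHom_fst_apply N S hLN p]
    exact ha _ hrN hrN2 n _ hxα
  · rw [map_nsmul, pairHom_fst_apply, degBeta_heckeEvalBar N q hq hqN _ hsupp x,
      ← pairHom_fst_apply N S hLN p]
    exact ha _ hrN hrN2 n _ hxβ

end Fermat.Agent.S35.H75
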