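/-
S35-ALG (helper75): the key statement of the S35 top from the geometric interface `(B2new)`.

Level `M = N q`, `q` a prime not dividing `N`, `g` a newform of level `N q`, `S ⊇ primes(N q)`,
`chig` the eigencharacter of `g` on `heckeAlgebra (N q) 2 S`, `lam` a prime.

* `keyStatement_of_b2new`: helper90's `KeyStatement lam (N q) S χ q` (`S35/H90/Top.lean`) from
  helper27's binding interface `B2newStatement N q lam` (`S35/H27/B2Defs.lean`), via (NEWPROJ)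
  (`NewProj.lean`) and the operator identity
  `(σ + q σ⁻¹)² - (q + 1)² = σ⁻² (σ² - 1)(σ² - q²)` (`BopId.lean`).
-/
import Mathlib
import Fermat.Agent.S35.H75.NewProj
import Fermat.Agent.S35.H75.BopId
import Fermat.Agent.S35.H96.IotaInjHecke
import Fermat.Agent.S35.H27.B2Defs
import Fermat.Agent.S35.H90.Top

set_option autoImplicit false

open CongruenceSubgroup ModularCurve CuspForm
open ModularFormClass (qCoeff)
open Fermat.Agent.S30.H86 (Rr)
open Fermat.Agent.S35.H90 (GoodIdx TJ TH KeyStatement Bop)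
open Fermat.Agent.S35.H60 (degAlpha degBeta)
open Fermat.Agent.S35.H27 (B2newStatement frobPoly)

noncomputable section

namespace Fermat.Agent.S35.H75

/-- `(σ + q σ⁻¹)² - (q + 1)² = σ⁻² (σ² - 1)(σ² - q²)` on `J₀(M)(ℚ̄)`. -/
theorem bop_bop_sub (M q : ℕ) (σ : AlgebraicClosure ℚ ≃ₐ[ℚ] AlgebraicClosure ℚ) (y : JZero M) :
    Bop σ ((q : ℕ) : ℤ) (Bop σ ((q : ℕ) : ℤ) y) - ((((q : ℕ) : ℤ) + 1) ^ 2) • y =
      σ⁻¹ • σ⁻¹ • frobPoly M q σ y :=
  smul_add_inv_sq_sub σ q y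

/-- **The key statement of the S35 top** at level `N q` from the geometric interface `(B2new)`. -/
theorem keyStatement_of_b2new (N q : ℕ) [NeZero N] [NeZero q] (hq : q.Prime) (hqN : ¬ q ∣ N)
    {g : CuspForm (Gamma0 (N * q)) 2} (hg : g.IsNewform) (S : Finset ℕ)
    (hMS : ∀ r : ℕ, r.Prime → r ∣ N * q → r ∈ S)
    (chig : heckeAlgebra (N * q) 2 (↑S : Set ℕ) →+* ℂ)
    (hchig : ∀ (ℓ : ℕ) (hℓ : ℓ.Prime) (hℓM : ¬ ℓ ∣ N * q) (hℓS : ℓ ∉ (↑S : Set ℕ)),
      chig (heckeAlgebra.T hℓ hℓM hℓS) = qCoeff g ℓ)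
    (lam : ℕ) (hlam : lam.Prime)
    {O' : Type} [CommRing O'] [IsDomain O'] [CharZero O'] (iota : chig.range →+* O')
    (hB2 : B2newStatement N q lam) :
    KeyStatement lam (N * q) S (iota.comp chig.rangeRestrict) q := by
  obtain ⟨r, hr, hchi, a, hnew⟩ := exists_newProj N q hq hqN hg S hMS chig hchig lam hlam
  obtain ⟨a₂, hB⟩ := hB2
  have hχ : (iota.comp chig.rangeRestrict) r.2 ≠ 0 :=
    Fermat.Agent.S35.H96.chi_ne_zero chig iota hchi
  have hlam0 : ((lam ^ a : ℕ) : O') ≠ 0 := by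
    rw [Nat.cast_ne_zero]
    exact pow_ne_zero a hlam.ne_zero
  refine ⟨(lam ^ a) • r, nsmul_mem hr _, a₂, ?_, fun A hA σ hσ n x hx => ?_⟩
  · rw [Prod.smul_snd, map_nsmul, nsmul_eq_mul]
    exact mul_ne_zero hlam0 hχ
  · have hy : ((lam ^ a) • r).1 x = lam ^ a • r.1 x := rfl
    rw [hy]
    have hyt : lam ^ n • (lam ^ a • r.1 x) = 0 := by
      rw [smul_comm, ← map_nsmul, hx, map_zero, smul_zero]
    obtain ⟨hα, hβ⟩ := hnew n x hx
    have h1 := hB n A hA σ hσ _ hyt hα hβ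
    have h0 : ∀ τ : AlgebraicClosure ℚ ≃ₐ[ℚ] AlgebraicClosure ℚ,
        τ • (0 : JZero (N * q)) = 0 := fun τ => smul_zero (A := JZero (N * q)) τ
    rw [bop_bop_sub, smul_comm (lam ^ a₂) σ⁻¹, smul_comm (lam ^ a₂) σ⁻¹, h1, h0, h0]

end Fermat.Agent.S35.H75
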